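import Mathlib

/-!
# Kummer's logarithmic derivative on polynomials in characteristic `p`

`D f = X * f'` on `R[X]`, the filtration by powers of `X - 1`, and the linear functionals
`ellAux j f = (D^j f)(1)`.
-/

set_option autoImplicit false

open Polynomial

namespace Fermat.Agent.H43

variable {R : Type*} [CommRing R]

/-- The derivation `f ↦ X * f'` on `R[X]`. -/
noncomputable def polyD : R[X] →ₗ[R] R[X] :=
  (LinearMap.mulLeft R (X : R[X])).comp derivative

lemma polyD_apply (f : R[X]) : polyD f = X * derivative f := rfl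

lemma polyD_mul (f g : R[X]) : polyD (f * g) = polyD f * g + f * polyD g := by
  simp only [polyD_apply, derivative_mul]; ring

@[simp] lemma polyD_C (a : R) : polyD (C a) = 0 := by simp [polyD_apply]

@[simp] lemma polyD_one : polyD (1 : R[X]) = 0 := by simp [polyD_apply]

@[simp] lemma polyD_X : polyD (X : R[X]) = X := by simp [polyD_apply]

lemma polyD_X_pow (n : ℕ) : polyD ((X : R[X]) ^ n) = (n : R[X]) * X ^ n := by
  rcases n with _ | n
  · simp
  · simp only [polyD_apply, derivative_X_pow, Nat.add_sub_cancel]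
    rw [← C_eq_natCast]; ring

lemma polyD_pow_X_pow (j n : ℕ) :
    (polyD ^ j) ((X : R[X]) ^ n) = ((n : R[X]) ^ j) * X ^ n := by
  induction j with
  | zero => simp
  | succ j ih =>
    rw [pow_succ', Module.End.mul_apply, ih, ← Nat.cast_pow, ← C_eq_natCast, ← smul_eq_C_mul,
      map_smul, polyD_X_pow, smul_eq_C_mul, C_eq_natCast]
    push_cast; ring

/-- `(X-1)^(k+1) ∣ f → (X-1)^k ∣ D f`. -/
lemma X_sub_one_pow_dvd_polyD {k : ℕ} {f : R[X]} (h : (X - 1 : R[X]) ^ (k + 1) ∣ f) :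
    (X - 1 : R[X]) ^ k ∣ polyD f := by
  obtain ⟨q, rfl⟩ := h
  rw [polyD_apply, derivative_mul, derivative_pow]
  simp only [derivative_sub, derivative_X, derivative_one, sub_zero, mul_one, Nat.add_sub_cancel]
  refine Dvd.dvd.mul_left (dvd_add ?_ ?_) _
  · exact Dvd.dvd.mul_right (Dvd.dvd.mul_left (dvd_refl _) _) _
  · exact Dvd.dvd.mul_right (pow_dvd_pow _ (Nat.le_succ k)) _

lemma X_sub_one_pow_dvd_polyD_pow (j : ℕ) {k : ℕ} {f : R[X]}
    (h : (X - 1 : R[X]) ^ (k + j) ∣ f) : (X - 1 : R[X]) ^ k ∣ (polyD ^ j) f := by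
  induction j generalizing k with
  | zero => simpa using h
  | succ j ih =>
    rw [pow_succ', Module.End.mul_apply]
    apply X_sub_one_pow_dvd_polyD
    apply ih
    rw [show k + 1 + j = k + (j + 1) by ring]
    exact h

/-- The functional `f ↦ (D^j f)(1)`. -/
noncomputable def ellAux (j : ℕ) : R[X] →ₗ[R] R :=
  (Polynomial.leval (1 : R)).comp (polyD ^ j)

lemma ellAux_apply (j : ℕ) (f : R[X]) : ellAux j f = eval 1 ((polyD ^ j) f) := rfl

lemma ellAux_eq_zero_of_dvd (j : ℕ) {f : R[X]} (h : (X - 1 : R[X]) ^ (j + 1) ∣ f) :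
    ellAux j f = 0 := by
  have h1 : (X - 1 : R[X]) ^ 1 ∣ (polyD ^ j) f :=
    X_sub_one_pow_dvd_polyD_pow j (by rwa [add_comm])
  obtain ⟨q, hq⟩ := h1
  rw [ellAux_apply, hq]
  simp

lemma ellAux_X_pow (j n : ℕ) : ellAux j ((X : R[X]) ^ n) = (n : R) ^ j := by
  rw [ellAux_apply, polyD_pow_X_pow]
  simp

/-- value on `D (X^i) * X^m`. -/
lemma ellAux_polyD_X_pow_mul_X_pow (j i m : ℕ) :
    ellAux j (polyD ((X : R[X]) ^ i) * X ^ m) = (i : R) * ((i + m : ℕ) : R) ^ j := by
  rw [polyD_X_pow, mul_assoc, ← pow_add, ← C_eq_natCast, ← smul_eq_C_mul, map_smul, ellAux_X_pow]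
  simp

end Fermat.Agent.H43
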