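import Mathlib
import Fermat.Agent.H43.PolyLog

/-!
# Kummer's logarithmic derivative homomorphisms on the units of `ℤ[ζ_p]`
-/

set_option autoImplicit false

open Polynomial NumberField

namespace Fermat.Agent.H43

section charp

variable (p : ℕ) [hp : Fact p.Prime]

/-- reduction of integer polynomials modulo `p`. -/
noncomputable def redP : ℤ[X] →+* (ZMod p)[X] := Polynomial.mapRingHom (Int.castRingHom (ZMod p))

lemma redP_apply (f : ℤ[X]) : redP p f = f.map (Int.castRingHom (ZMod p)) := rfl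

lemma cyclotomic_zmod_eq : cyclotomic p (ZMod p) = (X - 1 : (ZMod p)[X]) ^ (p - 1) := by
  have h1 : cyclotomic p (ZMod p) * (X - 1) = (X - 1 : (ZMod p)[X]) ^ (p - 1) * (X - 1) := by
    rw [cyclotomic_prime_mul_X_sub_one, ← pow_succ, Nat.sub_add_cancel hp.out.one_le,
      sub_pow_char, one_pow]
  exact mul_right_cancel₀ (X_sub_C_ne_zero (1 : ZMod p)) (by simpa using h1)

lemma redP_cyclotomic : redP p (cyclotomic p ℤ) = (X - 1 : (ZMod p)[X]) ^ (p - 1) := by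
  rw [redP_apply, map_cyclotomic, cyclotomic_zmod_eq]

/-- `T g h = D (ḡ) * h̄`. -/
noncomputable def kT (g h : ℤ[X]) : (ZMod p)[X] := polyD (redP p g) * redP p h

lemma kT_def (g h : ℤ[X]) : kT p g h = polyD (redP p g) * redP p h := rfl

/-- changing the lifts by multiples of the cyclotomic polynomial changes `T` by a multiple of
`(X-1)^(p-2)`. -/
lemma kT_sub_dvd (g h a b : ℤ[X]) :
    (X - 1 : (ZMod p)[X]) ^ (p - 2) ∣
      kT p (g + cyclotomic p ℤ * a) (h + cyclotomic p ℤ * b) - kT p g h := by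
  have hΨ : redP p (cyclotomic p ℤ) = (X - 1 : (ZMod p)[X]) ^ (p - 1) := redP_cyclotomic p
  have h1 : (X - 1 : (ZMod p)[X]) ^ (p - 2) ∣ (X - 1 : (ZMod p)[X]) ^ (p - 1) :=
    pow_dvd_pow _ (by omega)
  have h2 : (X - 1 : (ZMod p)[X]) ^ (p - 2) ∣ polyD ((X - 1 : (ZMod p)[X]) ^ (p - 1)) := by
    apply X_sub_one_pow_dvd_polyD
    have : p - 2 + 1 = p - 1 := by have := hp.out.two_le; omega
    rw [this]
  simp only [kT_def, map_add, map_mul, hΨ, polyD_mul]
  set Ψ := (X - 1 : (ZMod p)[X]) ^ (p - 1)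
  have e : (polyD ((redP p) g) + (polyD Ψ * (redP p) a + Ψ * polyD ((redP p) a))) *
        ((redP p) h + Ψ * (redP p) b) - polyD ((redP p) g) * (redP p) h =
      Ψ * (polyD (redP p g) * redP p b + polyD (redP p a) * (redP p h + Ψ * redP p b)) +
      polyD Ψ * (redP p a * (redP p h + Ψ * redP p b)) := by ring
  rw [e]
  exact dvd_add (Dvd.dvd.mul_right h1 _) (Dvd.dvd.mul_right h2 _)

/-- additivity of `T` modulo `(X-1)^(p-1)`. -/
lemma kT_mul_sub_dvd (g h g' h' c c' : ℤ[X]) (hgh : g * h = 1 + cyclotomic p ℤ * c)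
    (hgh' : g' * h' = 1 + cyclotomic p ℤ * c') :
    (X - 1 : (ZMod p)[X]) ^ (p - 1) ∣ kT p (g * g') (h * h') - (kT p g h + kT p g' h') := by
  have hΨ : redP p (cyclotomic p ℤ) = (X - 1 : (ZMod p)[X]) ^ (p - 1) := redP_cyclotomic p
  have e1 : redP p g * redP p h = 1 + (X - 1 : (ZMod p)[X]) ^ (p - 1) * redP p c := by
    rw [← map_mul, hgh, map_add, map_mul, hΨ, map_one]
  have e2 : redP p g' * redP p h' = 1 + (X - 1 : (ZMod p)[X]) ^ (p - 1) * redP p c' := by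
    rw [← map_mul, hgh', map_add, map_mul, hΨ, map_one]
  simp only [kT_def, map_mul, polyD_mul]
  set Ψ := (X - 1 : (ZMod p)[X]) ^ (p - 1)
  have e : (polyD ((redP p) g) * (redP p) g' + (redP p) g * polyD ((redP p) g')) *
        ((redP p) h * (redP p) h') -
      (polyD ((redP p) g) * (redP p) h + polyD ((redP p) g') * (redP p) h') =
      polyD (redP p g) * redP p h * (redP p g' * redP p h' - 1) +
      polyD (redP p g') * redP p h' * (redP p g * redP p h - 1) := by ring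
  rw [e, e1, e2]
  refine dvd_add ?_ ?_
  · exact Dvd.dvd.mul_left (by simp) _
  · exact Dvd.dvd.mul_left (by simp) _

end charp

section units

variable {p : ℕ} [hp : Fact p.Prime] {K : Type*} [Field K] [NumberField K]
  [IsCyclotomicExtension {p} ℚ K] {ζ : K} (hζ : IsPrimitiveRoot ζ p)

local instance instNeZeroOfFactPrime : NeZero p := ⟨hp.out.ne_zero⟩

include hζ in
lemma aeval_toInteger_surjective : Function.Surjective (aeval (R := ℤ) hζ.toInteger) := by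
  intro y
  obtain ⟨f, hf⟩ := hζ.integralPowerBasis.exists_eq_aeval' y
  rw [hζ.integralPowerBasis_gen] at hf
  exact ⟨f, hf.symm⟩

omit [IsCyclotomicExtension {p} ℚ K] in
include hζ in
lemma cyclotomic_dvd_of_aeval_eq_zero {g : ℤ[X]} (h : aeval hζ.toInteger g = 0) :
    cyclotomic p ℤ ∣ g := by
  have h1 : aeval ζ g = 0 := by
    have := congrArg (algebraMap (𝓞 K) K) h
    rw [← aeval_algebraMap_apply, map_zero] at this
    simpa [← RingOfIntegers.coe_eq_algebraMap, hζ.coe_toInteger] using this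
  rw [cyclotomic_eq_minpoly hζ hp.out.pos]
  exact minpoly.isIntegrallyClosed_dvd (hζ.isIntegral hp.out.pos) h1

/-- a chosen polynomial lift of an algebraic integer. -/
noncomputable def liftZ (x : 𝓞 K) : ℤ[X] := Classical.choose (aeval_toInteger_surjective hζ x)

lemma aeval_liftZ (x : 𝓞 K) : aeval hζ.toInteger (liftZ hζ x) = x :=
  Classical.choose_spec (aeval_toInteger_surjective hζ x)

/-- Kummer's logarithmic derivative `ℓ_{j+1}` of a unit. -/
noncomputable def kummerLog (j : ℕ) (u : (𝓞 K)ˣ) : ZMod p :=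
  ellAux j (kT p (liftZ hζ (u : 𝓞 K)) (liftZ hζ ((u⁻¹ : (𝓞 K)ˣ) : 𝓞 K)))

include hζ in
lemma exists_eq_add_of_aeval_eq {g g' : ℤ[X]} (h : aeval hζ.toInteger g' = aeval hζ.toInteger g) :
    ∃ a, g' = g + cyclotomic p ℤ * a := by
  have : aeval hζ.toInteger (g' - g) = 0 := by rw [map_sub, h, sub_self]
  obtain ⟨a, ha⟩ := cyclotomic_dvd_of_aeval_eq_zero hζ this
  exact ⟨a, by rw [← ha]; ring⟩

lemma kummerLog_eq {j : ℕ} (hj : j + 3 ≤ p) (u : (𝓞 K)ˣ) {g h : ℤ[X]}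
    (hg : aeval hζ.toInteger g = u) (hh : aeval hζ.toInteger h = ((u⁻¹ : (𝓞 K)ˣ) : 𝓞 K)) :
    kummerLog hζ j u = ellAux j (kT p g h) := by
  obtain ⟨a, ha⟩ := exists_eq_add_of_aeval_eq hζ ((aeval_liftZ hζ (u : 𝓞 K)).trans hg.symm)
  obtain ⟨b, hb⟩ := exists_eq_add_of_aeval_eq hζ
    ((aeval_liftZ hζ ((u⁻¹ : (𝓞 K)ˣ) : 𝓞 K)).trans hh.symm)
  have hdvd := kT_sub_dvd p g h a b
  rw [← ha, ← hb] at hdvd
  have h0 : ellAux j (kT p (liftZ hζ (u : 𝓞 K)) (liftZ hζ ((u⁻¹ : (𝓞 K)ˣ) : 𝓞 K)) - kT p g h) = 0 :=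
    ellAux_eq_zero_of_dvd j (dvd_trans (pow_dvd_pow _ (by omega)) hdvd)
  rw [map_sub, sub_eq_zero] at h0
  exact h0

lemma kummerLog_mul {j : ℕ} (hj : j + 3 ≤ p) (u v : (𝓞 K)ˣ) :
    kummerLog hζ j (u * v) = kummerLog hζ j u + kummerLog hζ j v := by
  set g := liftZ hζ (u : 𝓞 K)
  set h := liftZ hζ ((u⁻¹ : (𝓞 K)ˣ) : 𝓞 K)
  set g' := liftZ hζ (v : 𝓞 K)
  set h' := liftZ hζ ((v⁻¹ : (𝓞 K)ˣ) : 𝓞 K)
  have hg : aeval hζ.toInteger g = u := aeval_liftZ hζ _
  have hh : aeval hζ.toInteger h = ((u⁻¹ : (𝓞 K)ˣ) : 𝓞 K) := aeval_liftZ hζ _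
  have hg' : aeval hζ.toInteger g' = v := aeval_liftZ hζ _
  have hh' : aeval hζ.toInteger h' = ((v⁻¹ : (𝓞 K)ˣ) : 𝓞 K) := aeval_liftZ hζ _
  have e1 : aeval hζ.toInteger (g * g') = ((u * v : (𝓞 K)ˣ) : 𝓞 K) := by
    rw [map_mul, hg, hg', Units.val_mul]
  have e2 : aeval hζ.toInteger (h * h') = (((u * v)⁻¹ : (𝓞 K)ˣ) : 𝓞 K) := by
    rw [map_mul, hh, hh', ← Units.val_mul, mul_inv]
  rw [kummerLog_eq hζ hj (u * v) e1 e2]
  obtain ⟨c, hc⟩ : ∃ c, g * h = 1 + cyclotomic p ℤ * c := by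
    apply exists_eq_add_of_aeval_eq hζ
    rw [map_mul, hg, hh, map_one, ← Units.val_mul, mul_inv_cancel, Units.val_one]
  obtain ⟨c', hc'⟩ : ∃ c', g' * h' = 1 + cyclotomic p ℤ * c' := by
    apply exists_eq_add_of_aeval_eq hζ
    rw [map_mul, hg', hh', map_one, ← Units.val_mul, mul_inv_cancel, Units.val_one]
  have hdvd := kT_mul_sub_dvd p g h g' h' c c' hc hc'
  have h0 : ellAux j (kT p (g * g') (h * h') - (kT p g h + kT p g' h')) = 0 :=
    ellAux_eq_zero_of_dvd j (dvd_trans (pow_dvd_pow _ (by omega)) hdvd)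
  rw [map_sub, sub_eq_zero, map_add] at h0
  rw [h0]
  rfl

lemma kummerLog_eq_zero_of_dvd {j : ℕ} (hj : j + 3 ≤ p) (u : (𝓞 K)ˣ) (n : ℤ)
    (h : (p : 𝓞 K) ∣ (u : 𝓞 K) - n) : kummerLog hζ j u = 0 := by
  obtain ⟨w, hw⟩ := h
  set gw := liftZ hζ w
  have hg : aeval hζ.toInteger (C n + (p : ℤ[X]) * gw) = u := by
    rw [map_add, map_mul, aeval_C, map_natCast, aeval_liftZ, ← hw]
    simp
  rw [kummerLog_eq hζ hj u hg (aeval_liftZ hζ _), kT_def]
  have : redP p (C n + (p : ℤ[X]) * gw) = C ((n : ZMod p)) := by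
    rw [map_add, map_mul, map_natCast]
    have hp0 : ((p : ℕ) : (ZMod p)[X]) = 0 := by
      rw [← C_eq_natCast, ZMod.natCast_self, C_0]
    rw [hp0, zero_mul, add_zero, redP_apply, map_C]
    simp
  rw [this, polyD_C, zero_mul, map_zero]

end units

end Fermat.Agent.H43
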