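import Mathlib
import Fermat.Agent.H43.KummerLog

/-!
# Explicit values of Kummer's logarithmic derivatives on `ζ` and on cyclotomic units
-/

set_option autoImplicit false

open Polynomial NumberField

namespace Fermat.Agent.H43

section units

variable {p : ℕ} [hp : Fact p.Prime] {K : Type*} [Field K] [NumberField K]
  [IsCyclotomicExtension {p} ℚ K] {ζ : K} (hζ : IsPrimitiveRoot ζ p)

lemma kummerLog_eq' {j : ℕ} (hj : j + 3 ≤ p) (u : (𝓞 K)ˣ) {g h : ℤ[X]}
    (hg : aeval hζ.toInteger g = u) (hgh : aeval hζ.toInteger g * aeval hζ.toInteger h = 1) :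
    kummerLog hζ j u = ellAux j (kT p g h) := by
  apply kummerLog_eq hζ hj u hg
  rw [hg] at hgh
  exact (Units.inv_eq_of_mul_eq_one_right hgh).symm

omit [NumberField K] [IsCyclotomicExtension {p} ℚ K] in
include hζ in
lemma toInteger_sub_one_ne_zero : hζ.toInteger - 1 ≠ 0 := by
  intro h
  have h1 : hζ.toInteger = 1 := sub_eq_zero.mp h
  have h2 := hζ.toInteger_isPrimitiveRoot
  rw [h1] at h2
  have h3 : p ∣ 1 := h2.dvd_of_pow_eq_one 1 (one_pow 1)
  exact hp.out.one_lt.ne' (Nat.dvd_one.mp h3)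

omit [NumberField K] [IsCyclotomicExtension {p} ℚ K] in
include hζ in
/-- the cyclotomic unit `1 + ζ + ... + ζ^(a-1)` times `1 + ζ^a + ... + ζ^(a(b-1))` is `1`
when `a * b ≡ 1 mod p`. -/
lemma geom_sum_mul_geom_sum_eq_one (a b k : ℕ) (hab : a * b = 1 + p * k) :
    (∑ i ∈ Finset.range a, hζ.toInteger ^ i) * (∑ m ∈ Finset.range b, hζ.toInteger ^ (a * m)) = 1 := by
  have hz : hζ.toInteger ^ p = 1 := hζ.toInteger_isPrimitiveRoot.pow_eq_one
  apply mul_left_cancel₀ (toInteger_sub_one_ne_zero hζ)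
  rw [← mul_assoc, mul_geom_sum]
  have : ∑ m ∈ Finset.range b, hζ.toInteger ^ (a * m) =
      ∑ m ∈ Finset.range b, (hζ.toInteger ^ a) ^ m := by
    simp only [pow_mul]
  rw [this, mul_geom_sum, ← pow_mul, hab, pow_add, pow_mul, hz, one_pow, mul_one, pow_one, mul_one]

/-- the unit `ζ`. -/
noncomputable def zetaUnit : (𝓞 K)ˣ :=
  (hζ.toInteger_isPrimitiveRoot.isUnit hp.out.ne_zero).unit

omit [NumberField K] [IsCyclotomicExtension {p} ℚ K] in
lemma zetaUnit_coe : ((zetaUnit hζ : (𝓞 K)ˣ) : 𝓞 K) = hζ.toInteger := rfl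

/-- the cyclotomic unit `1 + ζ + ... + ζ^(a-1)`, given `a * b = 1 + p * k`. -/
noncomputable def cycUnit (a b k : ℕ) (hab : a * b = 1 + p * k) : (𝓞 K)ˣ :=
  Units.mkOfMulEqOne _ _ (geom_sum_mul_geom_sum_eq_one hζ a b k hab)

omit [NumberField K] [IsCyclotomicExtension {p} ℚ K] in
lemma cycUnit_coe (a b k : ℕ) (hab : a * b = 1 + p * k) :
    ((cycUnit hζ a b k hab : (𝓞 K)ˣ) : 𝓞 K) = ∑ i ∈ Finset.range a, hζ.toInteger ^ i := rfl

lemma kummerLog_zetaUnit {j : ℕ} (hj : j + 3 ≤ p) :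
    kummerLog hζ j (zetaUnit hζ) = if j = 0 then 1 else 0 := by
  have hz : hζ.toInteger ^ p = 1 := hζ.toInteger_isPrimitiveRoot.pow_eq_one
  have hg : aeval hζ.toInteger (X : ℤ[X]) = (zetaUnit hζ : (𝓞 K)ˣ) := by
    rw [aeval_X, zetaUnit_coe]
  have hgh : aeval hζ.toInteger (X : ℤ[X]) * aeval hζ.toInteger ((X : ℤ[X]) ^ (p - 1)) = 1 := by
    rw [aeval_X, map_pow, aeval_X, ← pow_succ', Nat.sub_add_cancel hp.out.one_le, hz]
  rw [kummerLog_eq' hζ hj _ hg hgh, kT_def]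
  have e : polyD (redP p (X : ℤ[X])) * redP p ((X : ℤ[X]) ^ (p - 1)) = (X : (ZMod p)[X]) ^ p := by
    rw [map_pow]
    simp only [redP_apply, map_X, polyD_X]
    rw [← pow_succ', Nat.sub_add_cancel hp.out.one_le]
  rw [e, ellAux_X_pow, ZMod.natCast_self]
  rcases j with _ | j
  · simp
  · simp

lemma kummerLog_cycUnit {j : ℕ} (hj : j + 3 ≤ p) (a b k : ℕ) (hab : a * b = 1 + p * k) :
    kummerLog hζ j (cycUnit hζ a b k hab) =
      ∑ i ∈ Finset.range a, ∑ m ∈ Finset.range b,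
        (i : ZMod p) * ((i + a * m : ℕ) : ZMod p) ^ j := by
  have hg : aeval hζ.toInteger (∑ i ∈ Finset.range a, (X : ℤ[X]) ^ i) =
      (cycUnit hζ a b k hab : (𝓞 K)ˣ) := by
    rw [cycUnit_coe, map_sum]
    simp
  have hgh : aeval hζ.toInteger (∑ i ∈ Finset.range a, (X : ℤ[X]) ^ i) *
      aeval hζ.toInteger (∑ m ∈ Finset.range b, (X : ℤ[X]) ^ (a * m)) = 1 := by
    rw [map_sum, map_sum]
    simp only [map_pow, aeval_X]
    exact geom_sum_mul_geom_sum_eq_one hζ a b k hab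
  rw [kummerLog_eq' hζ hj _ hg hgh, kT_def]
  simp only [map_sum, map_pow, redP_apply, map_X, Finset.sum_mul, Finset.mul_sum,
    ellAux_polyD_X_pow_mul_X_pow]
  exact Finset.sum_comm

end units

end Fermat.Agent.H43
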