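import Mathlib
import Fermat.Agent.H43.KummerValues

/-!
# The second Kummer logarithmic derivative of the `ω²`-cyclotomic unit

For `p ≥ 5` the homomorphism `kummerLog hζ 1` takes the value `(a² - 1)/12` on the cyclotomic unit
`(1 - ζ^a)/(1 - ζ)`, hence the value `-1/12 ≠ 0` on
`η = ∏_{a=1}^{p-1} ((1 - ζ^a)/(1 - ζ))^(m a)`, `m a ≡ a^(p-3) mod p`.
Consequently no power `η^j`, `p ∤ j`, is congruent to a rational integer modulo `p`.
-/

set_option autoImplicit false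

open Polynomial NumberField

namespace Fermat.Agent.H43

section sums

variable {R : Type*} [CommRing R]

lemma two_mul_sum_range_cast (n : ℕ) :
    2 * ∑ i ∈ Finset.range n, (i : R) = (n : R) * ((n : R) - 1) := by
  induction n with
  | zero => simp
  | succ n ih =>
    rw [Finset.sum_range_succ, mul_add, ih]
    push_cast
    ring

lemma six_mul_sum_range_cast_sq (n : ℕ) :
    6 * ∑ i ∈ Finset.range n, (i : R) ^ 2 = (n : R) * ((n : R) - 1) * (2 * (n : R) - 1) := by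
  induction n with
  | zero => simp
  | succ n ih =>
    rw [Finset.sum_range_succ, mul_add, ih]
    push_cast
    ring

/-- the double sum computing `ℓ₂` of a cyclotomic unit. -/
lemma twelve_mul_double_sum (a b : ℕ) (hab : (a : R) * (b : R) = 1) :
    12 * ∑ i ∈ Finset.range a, ∑ m ∈ Finset.range b, (i : R) * ((i + a * m : ℕ) : R) ^ 1 =
      (a : R) ^ 2 - 1 := by
  have h1 : ∀ i ∈ Finset.range a, ∑ m ∈ Finset.range b, (i : R) * ((i + a * m : ℕ) : R) ^ 1 =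
      (b : R) * (i : R) ^ 2 + (a : R) * (i : R) * ∑ m ∈ Finset.range b, (m : R) := by
    intro i _
    rw [Finset.mul_sum]
    have : ∀ m ∈ Finset.range b, (i : R) * ((i + a * m : ℕ) : R) ^ 1 =
        (i : R) ^ 2 + (a : R) * (i : R) * (m : R) := by
      intro m _
      push_cast
      ring
    rw [Finset.sum_congr rfl this, Finset.sum_add_distrib, Finset.sum_const, Finset.card_range,
      nsmul_eq_mul]
  rw [Finset.sum_congr rfl h1, Finset.sum_add_distrib, ← Finset.mul_sum, ← Finset.sum_mul,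
    ← Finset.mul_sum]
  have e2a := two_mul_sum_range_cast (R := R) a
  have e2b := two_mul_sum_range_cast (R := R) b
  have e6 := six_mul_sum_range_cast_sq (R := R) a
  set Sa := ∑ i ∈ Finset.range a, (i : R)
  set Sb := ∑ i ∈ Finset.range b, (i : R)
  set Qa := ∑ i ∈ Finset.range a, (i : R) ^ 2
  have : 12 * ((b : R) * Qa + (a : R) * Sa * Sb) =
      2 * (b : R) * (6 * Qa) + 3 * (a : R) * (2 * Sa) * (2 * Sb) := by ring
  rw [this, e2a, e2b, e6]
  have e : 2 * (b : R) * ((a : R) * ((a : R) - 1) * (2 * (a : R) - 1)) +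
      3 * (a : R) * ((a : R) * ((a : R) - 1)) * ((b : R) * ((b : R) - 1)) =
      2 * ((a : R) * (b : R)) * (((a : R) - 1) * (2 * (a : R) - 1)) +
      3 * ((a : R) * (b : R)) * ((a : R) - 1) * ((a : R) * (b : R) - (a : R)) := by ring
  rw [e, hab]
  ring

end sums

section units

variable {p : ℕ} [hp : Fact p.Prime] {K : Type*} [Field K] [NumberField K]
  [IsCyclotomicExtension {p} ℚ K] {ζ : K} (hζ : IsPrimitiveRoot ζ p)

/-- `kummerLog` as an additive homomorphism. -/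
noncomputable def kummerLogHom (j : ℕ) (hj : j + 3 ≤ p) : Additive (𝓞 K)ˣ →+ ZMod p :=
  AddMonoidHom.mk' (fun x => kummerLog hζ j (Additive.toMul x))
    (fun x y => kummerLog_mul hζ hj (Additive.toMul x) (Additive.toMul y))

lemma kummerLogHom_apply (j : ℕ) (hj : j + 3 ≤ p) (u : (𝓞 K)ˣ) :
    kummerLogHom hζ j hj (Additive.ofMul u) = kummerLog hζ j u := rfl

lemma kummerLog_one {j : ℕ} (hj : j + 3 ≤ p) : kummerLog hζ j (1 : (𝓞 K)ˣ) = 0 := by
  have := map_zero (kummerLogHom hζ j hj)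
  rwa [← ofMul_one, kummerLogHom_apply] at this

lemma kummerLog_pow {j : ℕ} (hj : j + 3 ≤ p) (u : (𝓞 K)ˣ) (n : ℕ) :
    kummerLog hζ j (u ^ n) = (n : ZMod p) * kummerLog hζ j u := by
  have := map_nsmul (kummerLogHom hζ j hj) n (Additive.ofMul u)
  rw [← ofMul_pow, kummerLogHom_apply, kummerLogHom_apply, nsmul_eq_mul] at this
  exact this

lemma kummerLog_prod {j : ℕ} (hj : j + 3 ≤ p) {ι : Type*} (s : Finset ι) (f : ι → (𝓞 K)ˣ) :
    kummerLog hζ j (∏ i ∈ s, f i) = ∑ i ∈ s, kummerLog hζ j (f i) := by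
  have := map_sum (kummerLogHom hζ j hj) (fun i => Additive.ofMul (f i)) s
  rw [← ofMul_prod, kummerLogHom_apply] at this
  simpa [kummerLogHom_apply] using this

/-- `12 ℓ₂(1 + ζ + ⋯ + ζ^(a-1)) = a² - 1`. -/
lemma twelve_mul_kummerLog_cycUnit (h5 : 5 ≤ p) (a b k : ℕ) (hab : a * b = 1 + p * k) :
    12 * kummerLog hζ 1 (cycUnit hζ a b k hab) = (a : ZMod p) ^ 2 - 1 := by
  rw [kummerLog_cycUnit hζ (by omega) a b k hab]
  apply twelve_mul_double_sum
  have := congrArg (Nat.cast : ℕ → ZMod p) hab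
  push_cast at this
  rw [this]
  simp

/-- `12 ℓ₂(u) = a² - 1` for every unit `u` with `u (1 - ζ) = 1 - ζ^a`, `p ∤ a`. -/
lemma twelve_mul_kummerLog_of_mul_eq (h5 : 5 ≤ p) (a : ℕ) (ha : ¬ p ∣ a) (u : (𝓞 K)ˣ)
    (hu : (u : 𝓞 K) * (1 - hζ.toInteger) = 1 - hζ.toInteger ^ a) :
    12 * kummerLog hζ 1 u = (a : ZMod p) ^ 2 - 1 := by
  have hcop : Nat.Coprime a p := ((Nat.Prime.coprime_iff_not_dvd hp.out).mpr ha).symm
  -- find `b, k` with `a * b = 1 + p * k`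
  obtain ⟨b, k, hab⟩ : ∃ b k : ℕ, a * b = 1 + p * k := by
    have h1 : ((a : ZMod p)) ≠ 0 := by
      rw [Ne, ZMod.natCast_eq_zero_iff]
      exact ha
    obtain ⟨c, hc⟩ : ∃ c : ZMod p, (a : ZMod p) * c = 1 := ⟨(a : ZMod p)⁻¹, mul_inv_cancel₀ h1⟩
    refine ⟨c.val, (a * c.val) / p, ?_⟩
    have h2 : ((a * c.val : ℕ) : ZMod p) = ((1 : ℕ) : ZMod p) := by
      push_cast
      rw [ZMod.natCast_zmod_val, hc]
    have h3 : (a * c.val) % p = 1 % p := (ZMod.natCast_eq_natCast_iff' _ _ _).mp h2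
    have h4 : 1 % p = 1 := Nat.mod_eq_of_lt hp.out.one_lt
    have := Nat.mod_add_div (a * c.val) p
    omega
  have hu' : u = cycUnit hζ a b k hab := by
    apply Units.ext
    rw [cycUnit_coe]
    have h0 : (1 - hζ.toInteger) ≠ 0 := by
      intro h
      exact toInteger_sub_one_ne_zero hζ (by rw [← neg_eq_zero, neg_sub]; exact h)
    apply mul_right_cancel₀ h0
    rw [hu]
    have := mul_geom_sum (hζ.toInteger) a
    have e : (∑ i ∈ Finset.range a, hζ.toInteger ^ i) * (1 - hζ.toInteger) =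
        -((hζ.toInteger - 1) * ∑ i ∈ Finset.range a, hζ.toInteger ^ i) := by ring
    rw [e, this]
    ring
  rw [hu']
  exact twelve_mul_kummerLog_cycUnit hζ h5 a b k hab

/-- power sums over the nonzero residues. -/
lemma sum_Ico_one_pow_zmod (l : ℕ) :
    (∑ v ∈ Finset.Ico 1 p, (v : ZMod p) ^ l) = if (p - 1) ∣ l then (-1 : ZMod p) else 0 := by
  have hbij : (∑ v ∈ Finset.Ico 1 p, (v : ZMod p) ^ l) = ∑ u : (ZMod p)ˣ, (u : ZMod p) ^ l :=
    Finset.sum_bij'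
      (fun v hv ↦ Units.mk0 (v : ZMod p) (mt (ZMod.natCast_eq_zero_iff v p).mp (by
        have h1 := (Finset.mem_Ico.mp hv).1
        have h2 := (Finset.mem_Ico.mp hv).2
        exact Nat.not_dvd_of_pos_of_lt (by omega) h2)))
      (fun u _ ↦ (u : ZMod p).val)
      (fun _ _ ↦ Finset.mem_univ _)
      (fun u _ ↦ by
        rw [Finset.mem_Ico]
        refine ⟨?_, ZMod.val_lt _⟩
        have : (u : ZMod p).val ≠ 0 := by
          rw [Ne, ZMod.val_eq_zero]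
          exact u.ne_zero
        omega)
      (fun v hv ↦ by simp [ZMod.val_cast_of_lt (Finset.mem_Ico.mp hv).2])
      (fun u _ ↦ Units.ext (ZMod.natCast_zmod_val _))
      (fun _ _ ↦ rfl)
  rw [hbij, FiniteField.sum_pow_units, ZMod.card]

/-- **The value of `ℓ₂` on the `ω²`-cyclotomic unit**: `12 ℓ₂(η) = -1`. -/
theorem twelve_mul_kummerLog_eta (h5 : 5 ≤ p) (u : ℕ → (𝓞 K)ˣ)
    (hu : ∀ a ∈ Finset.Ico 1 p, (u a : 𝓞 K) * (1 - hζ.toInteger) = 1 - hζ.toInteger ^ a)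
    (m : ℕ → ℕ) (hm : ∀ a ∈ Finset.Ico 1 p, (m a : ZMod p) = (a : ZMod p) ^ (p - 3)) :
    12 * kummerLog hζ 1 (∏ a ∈ Finset.Ico 1 p, u a ^ m a) = -1 := by
  have hj : 1 + 3 ≤ p := by omega
  rw [kummerLog_prod hζ hj, Finset.mul_sum]
  have h1 : ∀ a ∈ Finset.Ico 1 p, 12 * kummerLog hζ 1 (u a ^ m a) =
      (a : ZMod p) ^ (p - 1) - (a : ZMod p) ^ (p - 3) := by
    intro a ha
    have ha' : ¬ p ∣ a := by
      have h1 := (Finset.mem_Ico.mp ha).1
      have h2 := (Finset.mem_Ico.mp ha).2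
      exact Nat.not_dvd_of_pos_of_lt (by omega) h2
    rw [kummerLog_pow hζ hj, hm a ha, mul_left_comm,
      twelve_mul_kummerLog_of_mul_eq hζ h5 a ha' (u a) (hu a ha)]
    have : p - 1 = (p - 3) + 2 := by omega
    rw [this, pow_add]
    ring
  rw [Finset.sum_congr rfl h1, Finset.sum_sub_distrib, sum_Ico_one_pow_zmod, sum_Ico_one_pow_zmod,
    if_pos (dvd_refl _), if_neg, sub_zero]
  intro hdvd
  have := Nat.le_of_dvd (by omega) hdvd
  omega

/-- `ℓ₂(η) ≠ 0`. -/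
theorem kummerLog_eta_ne_zero (h5 : 5 ≤ p) (u : ℕ → (𝓞 K)ˣ)
    (hu : ∀ a ∈ Finset.Ico 1 p, (u a : 𝓞 K) * (1 - hζ.toInteger) = 1 - hζ.toInteger ^ a)
    (m : ℕ → ℕ) (hm : ∀ a ∈ Finset.Ico 1 p, (m a : ZMod p) = (a : ZMod p) ^ (p - 3)) :
    kummerLog hζ 1 (∏ a ∈ Finset.Ico 1 p, u a ^ m a) ≠ 0 := by
  intro h0
  have := twelve_mul_kummerLog_eta hζ h5 u hu m hm
  rw [h0, mul_zero] at this
  have h1 : (1 : ZMod p) = 0 := by
    have := congrArg Neg.neg this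
    simpa using this.symm
  exact one_ne_zero h1

/-- **C7.** No power `η^j`, `p ∤ j`, of the `ω²`-cyclotomic unit is congruent to a rational
integer modulo `p`. -/
theorem eta_pow_not_int_mod_p (h5 : 5 ≤ p) (u : ℕ → (𝓞 K)ˣ)
    (hu : ∀ a ∈ Finset.Ico 1 p, (u a : 𝓞 K) * (1 - hζ.toInteger) = 1 - hζ.toInteger ^ a)
    (m : ℕ → ℕ) (hm : ∀ a ∈ Finset.Ico 1 p, (m a : ZMod p) = (a : ZMod p) ^ (p - 3))
    (j : ℕ) (hjp : ¬ p ∣ j) (z : ℤ)
    (h : (p : 𝓞 K) ∣ (((∏ a ∈ Finset.Ico 1 p, u a ^ m a) ^ j : (𝓞 K)ˣ) : 𝓞 K) - z) : False := by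
  have hj : 1 + 3 ≤ p := by omega
  have h0 := kummerLog_eq_zero_of_dvd hζ hj _ z h
  rw [kummerLog_pow hζ hj] at h0
  rcases mul_eq_zero.mp h0 with h1 | h1
  · exact hjp ((ZMod.natCast_eq_zero_iff j p).mp h1)
  · exact kummerLog_eta_ne_zero hζ h5 u hu m hm h1

include hζ in
/-- the `p`-th power of an algebraic integer of `ℚ(ζ_p)` is congruent to a rational integer
modulo `p`. -/
lemma exists_int_dvd_pow_sub (c : 𝓞 K) : ∃ z : ℤ, (p : 𝓞 K) ∣ c ^ p - z := by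
  obtain ⟨g, hg⟩ := aeval_toInteger_surjective hζ c
  have h1 : (hζ.toInteger - 1) ∣ c - ((g.eval 1 : ℤ) : 𝓞 K) := by
    have := Polynomial.sub_dvd_eval_sub hζ.toInteger 1 (g.map (algebraMap ℤ (𝓞 K)))
    rw [Polynomial.eval_map_algebraMap, Polynomial.eval_map_algebraMap, hg] at this
    have e : aeval (1 : 𝓞 K) g = ((g.eval 1 : ℤ) : 𝓞 K) := by
      rw [Polynomial.aeval_def, Polynomial.eval₂_at_one]
      simp
    rwa [e] at this
  have hassoc := IsCyclotomicExtension.Rat.associated_zeta_sub_one_pow_prime p hζ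
  have hpπ : (p : 𝓞 K) ∣ (hζ.toInteger - 1) ^ (p - 1) := hassoc.symm.dvd
  obtain ⟨t, ht⟩ := h1
  refine ⟨(g.eval 1) ^ p, ?_⟩
  have hx : c = (hζ.toInteger - 1) * t + ((g.eval 1 : ℤ) : 𝓞 K) := by rw [← ht]; ring
  rw [hx]
  push_cast
  apply hp.out.dvd_add_pow_sub_pow_of_dvd
  · rw [mul_pow]
    exact Dvd.dvd.mul_right (hpπ.trans (pow_dvd_pow _ (Nat.sub_le _ _))) _
  · exact dvd_mul_right _ _

/-- **C7, `p`-th power form.** `η^j`, `p ∤ j`, is not congruent modulo `p` to the `p`-th power of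
an algebraic integer. -/
theorem eta_pow_not_pow_mod_p (h5 : 5 ≤ p) (u : ℕ → (𝓞 K)ˣ)
    (hu : ∀ a ∈ Finset.Ico 1 p, (u a : 𝓞 K) * (1 - hζ.toInteger) = 1 - hζ.toInteger ^ a)
    (m : ℕ → ℕ) (hm : ∀ a ∈ Finset.Ico 1 p, (m a : ZMod p) = (a : ZMod p) ^ (p - 3))
    (j : ℕ) (hjp : ¬ p ∣ j) (c : 𝓞 K)
    (h : (p : 𝓞 K) ∣ (((∏ a ∈ Finset.Ico 1 p, u a ^ m a) ^ j : (𝓞 K)ˣ) : 𝓞 K) - c ^ p) :
    False := by
  obtain ⟨z, hz⟩ := exists_int_dvd_pow_sub hζ c
  refine eta_pow_not_int_mod_p hζ h5 u hu m hm j hjp z ?_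
  have := dvd_add h hz
  rwa [sub_add_sub_cancel] at this

/-- `η^j`, `p ∤ j`, is not a `p`-th power of a unit times ... : in particular `η` is not a
`p`-th power in `𝓞 K`. -/
theorem eta_pow_ne_pow (h5 : 5 ≤ p) (u : ℕ → (𝓞 K)ˣ)
    (hu : ∀ a ∈ Finset.Ico 1 p, (u a : 𝓞 K) * (1 - hζ.toInteger) = 1 - hζ.toInteger ^ a)
    (m : ℕ → ℕ) (hm : ∀ a ∈ Finset.Ico 1 p, (m a : ZMod p) = (a : ZMod p) ^ (p - 3))
    (j : ℕ) (hjp : ¬ p ∣ j) (c : 𝓞 K) :
    (((∏ a ∈ Finset.Ico 1 p, u a ^ m a) ^ j : (𝓞 K)ˣ) : 𝓞 K) ≠ c ^ p := by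
  intro h
  exact eta_pow_not_pow_mod_p hζ h5 u hu m hm j hjp c (by rw [h, sub_self]; exact dvd_zero _)

end units

end Fermat.Agent.H43
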