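import Mathlib

/-!
# From a logarithm-like homomorphism to Kummer's lemma

If `Λ : (𝓞 K)ˣ → (ZMod p)^n` is a homomorphism with `n = rank + 1` whose values on some `n` units
are linearly independent, then `ker Λ` consists of `p`-th powers (Dirichlet's unit theorem plus a
dimension count).
-/

set_option autoImplicit false

open NumberField

namespace Fermat.Agent.H43

variable (p : ℕ) [hp : Fact p.Prime] (K : Type*) [Field K] [NumberField K]

/-- every unit is a product of integer powers of `rank + 1` fixed units. -/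
lemma exists_gens :
    ∃ gens : Option (Fin (Units.rank K)) → (𝓞 K)ˣ,
      ∀ x : (𝓞 K)ˣ, ∃ e : Option (Fin (Units.rank K)) → ℤ, x = ∏ o, gens o ^ e o := by
  obtain ⟨t, ht⟩ := IsCyclic.exists_generator (α := Units.torsion K)
  refine ⟨fun o => o.elim (t : (𝓞 K)ˣ) (Units.fundSystem K), fun x => ?_⟩
  obtain ⟨ζe, hζe, -⟩ := Units.exist_unique_eq_mul_prod K x
  obtain ⟨m, hm⟩ := Subgroup.mem_zpowers_iff.mp (ht ζe.1)
  refine ⟨fun o => o.elim m ζe.2, ?_⟩
  rw [Fintype.prod_option, hζe]
  simp only [Option.elim_none, Option.elim_some]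
  congr 1
  rw [← hm]
  simp

theorem exists_pow_eq_of_log_eq_zero {n : ℕ} (Λ : Additive (𝓞 K)ˣ →+ (Fin n → ZMod p))
    (hn : Units.rank K + 1 = n) (U : Fin n → (𝓞 K)ˣ)
    (hU : LinearIndependent (ZMod p) (fun k => Λ (Additive.ofMul (U k))))
    (u : (𝓞 K)ˣ) (hu : Λ (Additive.ofMul u) = 0) : ∃ v : (𝓞 K)ˣ, u = v ^ p := by
  obtain ⟨gens, hgens⟩ := exists_gens K
  set w : Option (Fin (Units.rank K)) → (Fin n → ZMod p) := fun o => Λ (Additive.ofMul (gens o))
    with hw
  -- the value of Λ in terms of exponents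
  have hΛ : ∀ (x : (𝓞 K)ˣ) (e : Option (Fin (Units.rank K)) → ℤ), x = ∏ o, gens o ^ e o →
      Λ (Additive.ofMul x) = ∑ o, (e o : ZMod p) • w o := by
    intro x e hx
    rw [hx, ofMul_prod, map_sum]
    refine Finset.sum_congr rfl fun o _ => ?_
    rw [ofMul_zpow, map_zsmul, Int.cast_smul_eq_zsmul]
  have hcard : Fintype.card (Option (Fin (Units.rank K))) = Module.finrank (ZMod p) (Fin n → ZMod p) := by
    rw [Fintype.card_option, Fintype.card_fin, Module.finrank_fin_fun, hn]
  have hcard' : Fintype.card (Fin n) = Module.finrank (ZMod p) (Fin n → ZMod p) := by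
    rw [Fintype.card_fin, Module.finrank_fin_fun]
  have : Nonempty (Fin n) := ⟨⟨0, by omega⟩⟩
  have hspanU := hU.span_eq_top_of_card_eq_finrank hcard'
  have hspan : ⊤ ≤ Submodule.span (ZMod p) (Set.range w) := by
    rw [← hspanU, Submodule.span_le]
    rintro _ ⟨k, rfl⟩
    obtain ⟨e, he⟩ := hgens (U k)
    simp only [SetLike.mem_coe]
    rw [hΛ (U k) e he]
    exact Submodule.sum_mem _ fun o _ =>
      Submodule.smul_mem _ _ (Submodule.subset_span ⟨o, rfl⟩)
  have hli : LinearIndependent (ZMod p) w :=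
    linearIndependent_of_top_le_span_of_card_eq_finrank hspan hcard
  obtain ⟨e, he⟩ := hgens u
  have h0 := hΛ u e he
  rw [hu] at h0
  have hzero := Fintype.linearIndependent_iff.mp hli (fun o => (e o : ZMod p)) h0.symm
  have hdvd : ∀ o, (p : ℤ) ∣ e o := fun o =>
    (ZMod.intCast_zmod_eq_zero_iff_dvd (e o) p).mp (hzero o)
  choose f hf using hdvd
  refine ⟨∏ o, gens o ^ f o, ?_⟩
  rw [he, ← Finset.prod_pow]
  refine Finset.prod_congr rfl fun o _ => ?_
  rw [hf o, mul_comm, zpow_mul, zpow_natCast]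

end Fermat.Agent.H43
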