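import Mathlib
import Fermat.Agent.H43.KummerValues
import Fermat.Agent.H43.KummerAbstract

/-!
# Kummer's lemma for `p = 5, 7, 11, 13`

A unit of `ℤ[ζ_p]` congruent to a rational integer modulo `p` is a `p`-th power.
The generic statement `kummer_of_certificate` reduces this to the invertibility of an explicit
matrix over `ZMod p`, which is then checked for each of the four primes.
-/

set_option autoImplicit false

open Polynomial NumberField

namespace Fermat.Agent.H43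

/-- The matrix of Kummer logarithmic derivatives of the cyclotomic units `1 + ζ + ⋯ + ζ^(a i - 1)`. -/
def kummerMatrix (p : ℕ) {n : ℕ} (idx a b : Fin n → ℕ) : Matrix (Fin n) (Fin n) (ZMod p) :=
  Matrix.of fun i c => ∑ x ∈ Finset.range (a i), ∑ m ∈ Finset.range (b i),
    (x : ZMod p) * ((x + a i * m : ℕ) : ZMod p) ^ (idx c)

section generic

variable (p : ℕ) [hp : Fact p.Prime] (K : Type*) [Field K] [NumberField K]
  [IsCyclotomicExtension {p} ℚ K]

lemma rank_add_one_eq {n : ℕ} (hn : p = 2 * n + 1) (hn0 : 0 < n) : Units.rank K + 1 = n := by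
  have h2 : 2 < p := by omega
  rw [Units.rank, InfinitePlace.card_eq_nrRealPlaces_add_nrComplexPlaces,
    IsCyclotomicExtension.Rat.nrRealPlaces_eq_zero K h2,
    IsCyclotomicExtension.Rat.nrComplexPlaces_eq_totient_div_two p K,
    Nat.totient_prime hp.out]
  omega

theorem kummer_of_certificate {n : ℕ} (hn : p = 2 * n + 1)
    (idx a b k : Fin n → ℕ) (hidx : ∀ i, idx i + 3 ≤ p) (hab : ∀ i, a i * b i = 1 + p * k i)
    (N : Matrix (Fin n) (Fin n) (ZMod p)) (hN : kummerMatrix p idx a b * N = 1)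
    (u : (𝓞 K)ˣ) (z : ℤ) (h : (p : 𝓞 K) ∣ (u : 𝓞 K) - z) : ∃ v : (𝓞 K)ˣ, u = v ^ p := by
  have hn0 : 0 < n := by
    rcases Nat.eq_zero_or_pos n with h0 | h0
    · subst h0
      exact absurd hn hp.out.one_lt.ne'
    · exact h0
  have hζ := IsCyclotomicExtension.zeta_spec p ℚ K
  let Λ : Additive (𝓞 K)ˣ →+ (Fin n → ZMod p) :=
    AddMonoidHom.mk' (fun x i => kummerLog hζ (idx i) (Additive.toMul x)) (by
      intro x y
      funext i
      exact kummerLog_mul hζ (hidx i) _ _)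
  have hΛ : ∀ (x : (𝓞 K)ˣ) (i : Fin n), Λ (Additive.ofMul x) i = kummerLog hζ (idx i) x :=
    fun _ _ => rfl
  let U : Fin n → (𝓞 K)ˣ := fun i => cycUnit hζ (a i) (b i) (k i) (hab i)
  have hrow : (fun i => Λ (Additive.ofMul (U i))) = (kummerMatrix p idx a b).row := by
    funext i c
    rw [hΛ, kummerLog_cycUnit hζ (hidx c)]
    rfl
  have hU : LinearIndependent (ZMod p) (fun i => Λ (Additive.ofMul (U i))) := by
    rw [hrow, Matrix.linearIndependent_rows_iff_isUnit, Matrix.isUnit_iff_isUnit_det]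
    exact Matrix.isUnit_det_of_right_inverse hN
  refine exists_pow_eq_of_log_eq_zero p K Λ (rank_add_one_eq p K hn hn0) U hU u ?_
  funext i
  rw [hΛ]
  exact kummerLog_eq_zero_of_dvd hζ (hidx i) u z h

end generic

section five

lemma kummerCert_five :
    kummerMatrix 5 ![0, 1] ![2, 3] ![3, 2] * !![3, 2; 3, 1] = 1 := by decide

theorem kummer_five (K : Type*) [Field K] [NumberField K] [IsCyclotomicExtension {5} ℚ K]
    (u : (𝓞 K)ˣ) (z : ℤ) (h : (5 : 𝓞 K) ∣ (u : 𝓞 K) - z) : ∃ v : (𝓞 K)ˣ, u = v ^ 5 := by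
  have : Fact (Nat.Prime 5) := ⟨by norm_num⟩
  refine kummer_of_certificate 5 K (n := 2) (by norm_num) ![0, 1] ![2, 3] ![3, 2] ![1, 1]
    (by decide) (by decide) !![3, 2; 3, 1] kummerCert_five u z ?_
  simpa using h

end five

section seven

lemma kummerCert_seven :
    kummerMatrix 7 ![0, 1, 3] ![2, 3, 4] ![4, 5, 2] * !![0, 5, 2; 1, 0, 2; 1, 6, 5] = 1 := by
  decide

theorem kummer_seven (K : Type*) [Field K] [NumberField K] [IsCyclotomicExtension {7} ℚ K]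
    (u : (𝓞 K)ˣ) (z : ℤ) (h : (7 : 𝓞 K) ∣ (u : 𝓞 K) - z) : ∃ v : (𝓞 K)ˣ, u = v ^ 7 := by
  have : Fact (Nat.Prime 7) := ⟨by norm_num⟩
  refine kummer_of_certificate 7 K (n := 3) (by norm_num) ![0, 1, 3] ![2, 3, 4] ![4, 5, 2]
    ![1, 2, 1] (by decide) (by decide) !![0, 5, 2; 1, 0, 2; 1, 6, 5] kummerCert_seven u z ?_
  simpa using h

end seven

section eleven

lemma kummerCert_eleven :
    kummerMatrix 11 ![0, 1, 3, 5, 7] ![2, 3, 4, 5, 6] ![6, 4, 3, 9, 2] *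
      !![0, 0, 0, 9, 2; 5, 1, 4, 1, 2; 4, 5, 3, 6, 6; 10, 8, 6, 2, 5; 6, 8, 2, 1, 9] = 1 := by
  decide

theorem kummer_eleven (K : Type*) [Field K] [NumberField K] [IsCyclotomicExtension {11} ℚ K]
    (u : (𝓞 K)ˣ) (z : ℤ) (h : (11 : 𝓞 K) ∣ (u : 𝓞 K) - z) : ∃ v : (𝓞 K)ˣ, u = v ^ 11 := by
  have : Fact (Nat.Prime 11) := ⟨by norm_num⟩
  refine kummer_of_certificate 11 K (n := 5) (by norm_num) ![0, 1, 3, 5, 7] ![2, 3, 4, 5, 6]
    ![6, 4, 3, 9, 2] ![1, 1, 1, 4, 1] (by decide) (by decide)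
    !![0, 0, 0, 9, 2; 5, 1, 4, 1, 2; 4, 5, 3, 6, 6; 10, 8, 6, 2, 5; 6, 8, 2, 1, 9]
    kummerCert_eleven u z ?_
  simpa using h

end eleven

section thirteen

lemma kummerCert_thirteen :
    kummerMatrix 13 ![0, 1, 3, 5, 7, 9] ![2, 3, 4, 5, 6, 7] ![7, 9, 10, 8, 11, 2] *
      !![0, 0, 0, 0, 11, 2; 7, 6, 5, 11, 9, 12; 2, 2, 5, 6, 10, 8; 10, 3, 3, 10, 8, 2;
        10, 10, 4, 12, 10, 7; 10, 3, 1, 4, 3, 9] = 1 := by
  decide

theorem kummer_thirteen (K : Type*) [Field K] [NumberField K] [IsCyclotomicExtension {13} ℚ K]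
    (u : (𝓞 K)ˣ) (z : ℤ) (h : (13 : 𝓞 K) ∣ (u : 𝓞 K) - z) : ∃ v : (𝓞 K)ˣ, u = v ^ 13 := by
  have : Fact (Nat.Prime 13) := ⟨by norm_num⟩
  refine kummer_of_certificate 13 K (n := 6) (by norm_num) ![0, 1, 3, 5, 7, 9]
    ![2, 3, 4, 5, 6, 7] ![7, 9, 10, 8, 11, 2] ![1, 2, 3, 3, 5, 1] (by decide) (by decide)
    !![0, 0, 0, 0, 11, 2; 7, 6, 5, 11, 9, 12; 2, 2, 5, 6, 10, 8; 10, 3, 3, 10, 8, 2;
      10, 10, 4, 12, 10, 7; 10, 3, 1, 4, 3, 9]
    kummerCert_thirteen u z ?_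
  simpa using h

end thirteen

end Fermat.Agent.H43
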