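import Mathlib

/-!
# The characteristic polynomial of a cyclic permutation representation

If `σ` is a permutation of a finite type `Ω` with a single orbit, then the linear map
`x ↦ x ∘ σ` on `Ω → 𝕜` has characteristic polynomial `T ^ (card Ω) - 1`.
-/

set_option autoImplicit false
set_option linter.unusedSectionVars false

open Polynomial

namespace Fermat.Agent.H43

section perm

variable {Ω : Type*} [Fintype Ω] [DecidableEq Ω] (σ : Equiv.Perm Ω)

/-- in a single-orbit permutation, a power fixing one point is the identity. -/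
lemma perm_pow_eq_one_of_fix (hσ : ∀ a b : Ω, ∃ i : ℕ, (σ ^ i) a = b) {n : ℕ} {a : Ω}
    (h : (σ ^ n) a = a) : σ ^ n = 1 := by
  ext b
  obtain ⟨j, rfl⟩ := hσ a b
  rw [← Equiv.Perm.mul_apply, ← pow_add, add_comm, pow_add, Equiv.Perm.mul_apply, h]
  rfl

lemma perm_pow_inj_of_lt_orderOf (hσ : ∀ a b : Ω, ∃ i : ℕ, (σ ^ i) a = b) (a : Ω)
    {i j : ℕ} (hi : i < orderOf σ) (hj : j < orderOf σ)
    (h : (σ ^ i) a = (σ ^ j) a) : i = j := by
  wlog hle : i ≤ j generalizing i j
  · exact (this hj hi h.symm (le_of_not_ge hle)).symm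
  have h1 : (σ ^ (j - i)) a = a := by
    have h3 : (σ ^ j) a = (σ ^ i) ((σ ^ (j - i)) a) := by
      rw [← Equiv.Perm.mul_apply, ← pow_add, Nat.add_sub_cancel' hle]
    rw [h3] at h
    exact ((σ ^ i).injective h).symm
  have h2 := perm_pow_eq_one_of_fix σ hσ h1
  have h3 : orderOf σ ∣ j - i := orderOf_dvd_of_pow_eq_one h2
  have h5 : j - i = 0 := Nat.eq_zero_of_dvd_of_lt h3 (by omega)
  omega

lemma perm_orderOf_eq_card (hσ : ∀ a b : Ω, ∃ i : ℕ, (σ ^ i) a = b) [Nonempty Ω] :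
    orderOf σ = Fintype.card Ω := by
  obtain ⟨a⟩ := ‹Nonempty Ω›
  have hpos : 0 < orderOf σ := orderOf_pos σ
  -- the orbit map `Fin (orderOf σ) → Ω` is bijective
  let φ : Fin (orderOf σ) → Ω := fun i => (σ ^ (i : ℕ)) a
  have hinj : Function.Injective φ := by
    intro i j hij
    exact Fin.ext (perm_pow_inj_of_lt_orderOf σ hσ a i.2 j.2 hij)
  have hsurj : Function.Surjective φ := by
    intro b
    obtain ⟨i, hi⟩ := hσ a b
    refine ⟨⟨i % orderOf σ, Nat.mod_lt _ hpos⟩, ?_⟩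
    simp only [φ]
    rw [pow_mod_orderOf, hi]
  have := Fintype.card_of_bijective ⟨hinj, hsurj⟩
  simpa using this

lemma perm_pow_card_eq_one (hσ : ∀ a b : Ω, ∃ i : ℕ, (σ ^ i) a = b) [Nonempty Ω] :
    σ ^ Fintype.card Ω = 1 := by
  rw [← perm_orderOf_eq_card σ hσ]
  exact pow_orderOf_eq_one σ

lemma perm_pow_apply_injOn (hσ : ∀ a b : Ω, ∃ i : ℕ, (σ ^ i) a = b) [Nonempty Ω] (a : Ω)
    {i j : ℕ} (hi : i < Fintype.card Ω) (hj : j < Fintype.card Ω)
    (h : (σ ^ i) a = (σ ^ j) a) : i = j := by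
  rw [← perm_orderOf_eq_card σ hσ] at hi hj
  exact perm_pow_inj_of_lt_orderOf σ hσ a hi hj h

end perm

section charpoly

variable {Ω : Type*} [Fintype Ω] [DecidableEq Ω] (σ : Equiv.Perm Ω)
variable (𝕜 : Type*) [Field 𝕜]

/-- the linear map `x ↦ x ∘ σ`. -/
noncomputable def permLin : (Ω → 𝕜) →ₗ[𝕜] (Ω → 𝕜) := LinearMap.funLeft 𝕜 𝕜 σ

lemma permLin_apply (x : Ω → 𝕜) (a : Ω) : permLin σ 𝕜 x a = x (σ a) := rfl

lemma permLin_pow_apply (n : ℕ) (x : Ω → 𝕜) (a : Ω) :
    ((permLin σ 𝕜) ^ n) x a = x ((σ ^ n) a) := by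
  induction n generalizing x a with
  | zero => simp
  | succ n ih =>
    rw [pow_succ, Module.End.mul_apply, ih, permLin_apply, pow_succ', Equiv.Perm.mul_apply]

lemma aeval_permLin_apply (q : 𝕜[X]) (x : Ω → 𝕜) (a : Ω) :
    (aeval (permLin σ 𝕜) q) x a = ∑ j ∈ Finset.range (q.natDegree + 1), q.coeff j * x ((σ ^ j) a) := by
  rw [aeval_eq_sum_range, LinearMap.sum_apply, Finset.sum_apply]
  refine Finset.sum_congr rfl fun j _ => ?_
  rw [LinearMap.smul_apply, Pi.smul_apply, permLin_pow_apply, smul_eq_mul]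

theorem minpoly_permLin (hσ : ∀ a b : Ω, ∃ i : ℕ, (σ ^ i) a = b) [Nonempty Ω] :
    minpoly 𝕜 (permLin σ 𝕜) = X ^ Fintype.card Ω - 1 := by
  have hm : 0 < Fintype.card Ω := Fintype.card_pos
  symm
  apply minpoly.unique
  · exact monic_X_pow_sub_C (1 : 𝕜) hm.ne'
  · rw [map_sub, map_pow, aeval_X, map_one]
    apply LinearMap.ext
    intro x
    funext a
    rw [LinearMap.sub_apply, Pi.sub_apply, permLin_pow_apply, perm_pow_card_eq_one σ hσ]
    simp
  · intro q hq hq0
    by_contra hlt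
    rw [not_le] at hlt
    have hd : q.natDegree < Fintype.card Ω := by
      have h1 : (X ^ Fintype.card Ω - 1 : 𝕜[X]).degree = Fintype.card Ω := by
        rw [show (1 : 𝕜[X]) = C 1 from rfl, degree_X_pow_sub_C hm]
      rw [h1, degree_eq_natDegree hq.ne_zero] at hlt
      exact_mod_cast hlt
    obtain ⟨a⟩ := ‹Nonempty Ω›
    have h1 := aeval_permLin_apply σ 𝕜 q (Pi.single ((σ ^ q.natDegree) a) 1) a
    rw [hq0] at h1
    simp only [LinearMap.zero_apply, Pi.zero_apply] at h1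
    rw [Finset.sum_eq_single q.natDegree] at h1
    · rw [Pi.single_eq_same, mul_one] at h1
      have := hq.leadingCoeff
      rw [leadingCoeff] at this
      rw [this] at h1
      exact zero_ne_one h1
    · intro j hj hne
      have hj' : j < Fintype.card Ω := by
        have := Finset.mem_range.mp hj
        omega
      rw [Pi.single_apply, if_neg, mul_zero]
      intro h
      exact hne (perm_pow_apply_injOn σ hσ a hj' hd h)
    · intro h
      exact absurd (Finset.mem_range.mpr (Nat.lt_succ_self _)) h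

theorem charpoly_permLin (hσ : ∀ a b : Ω, ∃ i : ℕ, (σ ^ i) a = b) [Nonempty Ω] :
    (permLin σ 𝕜).charpoly = X ^ Fintype.card Ω - 1 := by
  have hm : 0 < Fintype.card Ω := Fintype.card_pos
  rw [← minpoly_permLin σ 𝕜 hσ]
  refine Polynomial.eq_of_monic_of_dvd_of_natDegree_le (minpoly.monic ?_)
    (LinearMap.charpoly_monic _) (LinearMap.minpoly_dvd_charpoly _) ?_
  · exact Algebra.IsIntegral.isIntegral _
  · rw [LinearMap.charpoly_natDegree, minpoly_permLin σ 𝕜 hσ, Module.finrank_fintype_fun_eq_card,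
      show (1 : 𝕜[X]) = C 1 from rfl, natDegree_X_pow_sub_C]

end charpoly

end Fermat.Agent.H43
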