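import Mathlib
import Fermat.Agent.H43.PermCharpoly

/-!
# The characteristic polynomial of an integer matrix from a permutation model

Let `A` be an integer matrix of size `m - 1` and `v i : Ω → ℝ` real vectors indexed like the
rows of `A`, `Ω` a set with `m` elements, such that the `v i` are linearly independent, have
coordinate sum `0`, and `v j ∘ σ = ∑ i, A i j • v i` for a single-orbit permutation `σ` of `Ω`.
Then the characteristic polynomial of `A` is `1 + X + ⋯ + X^(m-1)`; consequently, for a prime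
`p ∤ m`, the eigenspaces of `A` modulo `p` are at most one-dimensional.
-/

set_option autoImplicit false
set_option linter.unusedSectionVars false

open Polynomial

namespace Fermat.Agent.H43

section

variable {Ω : Type*} [Fintype Ω] [DecidableEq Ω]
variable {ι : Type*} [Fintype ι] [DecidableEq ι]

/-- the family `v` completed by the constant function `1`. -/
noncomputable def completedFamily (v : ι → (Ω → ℝ)) : ι ⊕ Unit → (Ω → ℝ) :=
  Sum.elim v (fun _ => fun _ => (1 : ℝ))

lemma sum_eq_zero_of_mem_span (v : ι → (Ω → ℝ)) (hsum : ∀ j, ∑ a, v j a = 0) {y : Ω → ℝ}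
    (hy : y ∈ Submodule.span ℝ (Set.range v)) : ∑ a, y a = 0 := by
  induction hy using Submodule.span_induction with
  | mem _ h =>
    obtain ⟨i, rfl⟩ := h
    exact hsum _
  | zero => simp
  | add _ _ _ _ hx hy => simp [Finset.sum_add_distrib, hx, hy]
  | smul _ _ _ hx => simp [← Finset.mul_sum, hx]

lemma linearIndependent_completedFamily [Nonempty Ω] (v : ι → (Ω → ℝ))
    (hsum : ∀ j, ∑ a, v j a = 0) (hb : LinearIndependent ℝ v) :
    LinearIndependent ℝ (completedFamily v) := by
  unfold completedFamily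
  refine LinearIndependent.sum_type hb ?_ ?_
  · refine LinearIndependent.of_subsingleton () ?_
    intro h
    have := congrFun h (Classical.arbitrary Ω)
    simp at this
  · rw [Submodule.disjoint_def]
    intro y hy hy'
    have h0 := sum_eq_zero_of_mem_span v hsum hy
    have : Set.range (fun _ : Unit => fun _ : Ω => (1 : ℝ)) = {fun _ => (1 : ℝ)} := by
      ext z
      simp
    rw [this, Submodule.mem_span_singleton] at hy'
    obtain ⟨t, rfl⟩ := hy'
    simp only [Pi.smul_apply, smul_eq_mul, mul_one, Finset.sum_const, Finset.card_univ,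
      nsmul_eq_mul] at h0
    have hc : (Fintype.card Ω : ℝ) ≠ 0 := Nat.cast_ne_zero.mpr Fintype.card_ne_zero
    have ht : t = 0 := by
      rcases mul_eq_zero.mp h0 with h | h
      · exact absurd h hc
      · exact h
    rw [ht, zero_smul]

theorem charpoly_of_perm_model [Nonempty Ω] (A : Matrix ι ι ℤ) (σ : Equiv.Perm Ω)
    (hσ : ∀ a b : Ω, ∃ i : ℕ, (σ ^ i) a = b) (v : ι → (Ω → ℝ))
    (hv : ∀ j a, v j (σ a) = ∑ i, (A i j : ℝ) * v i a)
    (hsum : ∀ j, ∑ a, v j a = 0)
    (hb' : ∀ c : ι → ℝ, (∀ a, ∑ i, c i * v i a = 0) → ∀ i, c i = 0)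
    (hrank : Fintype.card ι + 1 = Fintype.card Ω) :
    A.charpoly = ∑ i ∈ Finset.range (Fintype.card Ω), (X : ℤ[X]) ^ i := by
  classical
  have hb : LinearIndependent ℝ v := by
    rw [Fintype.linearIndependent_iff]
    intro c hc
    refine hb' c fun a => ?_
    have := congrFun hc a
    simpa [Finset.sum_apply] using this
  -- the real basis
  have hli := linearIndependent_completedFamily v hsum hb
  have hcard : Fintype.card (ι ⊕ Unit) = Module.finrank ℝ (Ω → ℝ) := by
    rw [Fintype.card_sum, Fintype.card_unit, hrank, Module.finrank_fintype_fun_eq_card]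
  let B : Module.Basis (ι ⊕ Unit) ℝ (Ω → ℝ) := basisOfLinearIndependentOfCardEqFinrank hli hcard
  have hB : ∀ j, B j = completedFamily v j := fun j => by
    simp only [B, coe_basisOfLinearIndependentOfCardEqFinrank]
  let M : Matrix (ι ⊕ Unit) (ι ⊕ Unit) ℝ :=
    Matrix.fromBlocks (A.map (Int.cast : ℤ → ℝ)) 0 0 (1 : Matrix Unit Unit ℝ)
  -- the permutation map has matrix `M` in the basis `B`
  have hf : permLin σ ℝ = Matrix.toLin B B M := by
    apply B.ext
    intro j
    rw [Matrix.toLin_self, Fintype.sum_sum_type]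
    rcases j with j | j
    · simp only [M, Matrix.fromBlocks_apply₁₁, Matrix.fromBlocks_apply₂₁, Matrix.zero_apply,
        zero_smul, Finset.sum_const_zero, add_zero, hB, completedFamily, Sum.elim_inl,
        Matrix.map_apply]
      funext a
      rw [permLin_apply, hv, Finset.sum_apply]
      refine Finset.sum_congr rfl fun i _ => ?_
      rw [Pi.smul_apply, smul_eq_mul]
    · simp only [M, Matrix.fromBlocks_apply₁₂, Matrix.fromBlocks_apply₂₂, Matrix.zero_apply,
        zero_smul, Finset.sum_const_zero, zero_add, hB, completedFamily, Sum.elim_inr,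
        Finset.univ_unique, Finset.sum_singleton, Matrix.one_apply_eq, one_smul]
      funext a
      rw [permLin_apply]
  have h1 : (permLin σ ℝ).charpoly = M.charpoly := by
    rw [hf, Matrix.charpoly_toLin]
  have h2 : M.charpoly = (A.charpoly.map (Int.castRingHom ℝ)) * (X - 1) := by
    simp only [M]
    rw [Matrix.charpoly_fromBlocks_zero₁₂, Matrix.charpoly_one, Fintype.card_unit, pow_one,
      ← Matrix.charpoly_map]
    rfl
  have h3 := charpoly_permLin σ ℝ hσ
  rw [h1, h2] at h3
  have h4 : (A.charpoly.map (Int.castRingHom ℝ)) =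
      (∑ i ∈ Finset.range (Fintype.card Ω), (X : ℤ[X]) ^ i).map (Int.castRingHom ℝ) := by
    have hX : (X - 1 : ℝ[X]) ≠ 0 := X_sub_C_ne_zero (1 : ℝ)
    apply mul_right_cancel₀ hX
    rw [h3, Polynomial.map_sum]
    simp only [Polynomial.map_pow, Polynomial.map_X]
    rw [geom_sum_mul]
  exact Polynomial.map_injective (Int.castRingHom ℝ) Int.cast_injective h4

end

section modp

variable {ι : Type*} [Fintype ι] [DecidableEq ι]

/-- If the characteristic polynomial of `A` is `1 + X + ⋯ + X^(m-1)` and `p ∤ m`, then every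
eigenspace of `A` modulo `p` is at most one-dimensional. -/
theorem exists_dvd_sub_mul_of_charpoly (A : Matrix ι ι ℤ) (m : ℕ)
    (hT : A.charpoly = ∑ i ∈ Finset.range m, (X : ℤ[X]) ^ i)
    (p : ℕ) [hp : Fact p.Prime] (hpm : ¬ p ∣ m) (θ : ℤ) (x y : ι → ℤ)
    (hx : ∀ i, (p : ℤ) ∣ A.mulVec x i - θ * x i) (hy : ∀ i, (p : ℤ) ∣ A.mulVec y i - θ * y i)
    (hy0 : ¬ ∀ i, (p : ℤ) ∣ y i) :
    ∃ c : ℤ, ∀ i, (p : ℤ) ∣ x i - c * y i := by
  classical
  let Ā : Matrix ι ι (ZMod p) := A.map (Int.castRingHom (ZMod p))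
  -- reduction of coordinates
  let red : (ι → ℤ) → (ι → ZMod p) := fun v i => ((v i : ℤ) : ZMod p)
  have red_T : ∀ v, red (A.mulVec v) = Ā.mulVec (red v) := by
    intro v
    funext i
    simp only [red, Ā, Matrix.mulVec, dotProduct, Matrix.map_apply]
    push_cast
    rfl
  -- the eigenspace
  let f : Module.End (ZMod p) (ι → ZMod p) := Matrix.toLin' Ā
  have hf : f.charpoly = ∑ i ∈ Finset.range m, (X : (ZMod p)[X]) ^ i := by
    simp only [f, Ā]
    rw [Matrix.charpoly_toLin', Matrix.charpoly_map, hT, Polynomial.map_sum]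
    simp
  have hsep : f.charpoly.Separable := by
    have h1 : (X ^ m - 1 : (ZMod p)[X]).Separable := by
      rw [X_pow_sub_one_separable_iff]
      rwa [Ne, ZMod.natCast_eq_zero_iff]
    refine h1.of_dvd ?_
    rw [hf, ← geom_sum_mul]
    exact dvd_mul_right _ _
  have hdim : Module.finrank (ZMod p) (f.eigenspace (θ : ZMod p)) ≤ 1 :=
    (LinearMap.finrank_eigenspace_le f _).trans (rootMultiplicity_le_one_of_separable hsep _)
  have hmem : ∀ v : ι → ℤ, (∀ i, (p : ℤ) ∣ A.mulVec v i - θ * v i) →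
      red v ∈ f.eigenspace (θ : ZMod p) := by
    intro v hv
    rw [Module.End.mem_eigenspace_iff]
    simp only [f, Matrix.toLin'_apply]
    rw [← red_T]
    funext i
    have := (ZMod.intCast_zmod_eq_zero_iff_dvd _ p).mpr (hv i)
    simp only [red, Pi.smul_apply, smul_eq_mul]
    push_cast at this
    exact sub_eq_zero.mp this
  obtain ⟨v₀, hv₀⟩ := finrank_le_one_iff.mp hdim
  obtain ⟨c₁, hc₁⟩ := hv₀ ⟨red x, hmem x hx⟩
  obtain ⟨c₂, hc₂⟩ := hv₀ ⟨red y, hmem y hy⟩
  have hc₁' : c₁ • (v₀ : ι → ZMod p) = red x := congrArg Subtype.val hc₁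
  have hc₂' : c₂ • (v₀ : ι → ZMod p) = red y := congrArg Subtype.val hc₂
  have hc₂0 : c₂ ≠ 0 := by
    intro h
    rw [h, zero_smul] at hc₂'
    apply hy0
    intro i
    exact (ZMod.intCast_zmod_eq_zero_iff_dvd _ p).mp (congrFun hc₂'.symm i)
  obtain ⟨c, hc⟩ := ZMod.intCast_surjective (c₁ * c₂⁻¹)
  refine ⟨c, fun i => ?_⟩
  rw [← ZMod.intCast_zmod_eq_zero_iff_dvd]
  push_cast
  have h1 : ((x i : ℤ) : ZMod p) = c₁ * (v₀ : ι → ZMod p) i := (congrFun hc₁' i).symm
  have h2 : ((y i : ℤ) : ZMod p) = c₂ * (v₀ : ι → ZMod p) i := (congrFun hc₂' i).symm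
  rw [h1, h2, hc, mul_assoc, ← mul_assoc c₂⁻¹, inv_mul_cancel₀ hc₂0, one_mul, sub_self]

end modp

end Fermat.Agent.H43
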