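import Mathlib
import Fermat.Prelude.Def_FLTPrelim_FreyPackage
import Fermat.Agent.H9.Assembly
import Fermat.Agent.H43.KummerLemma
import Fermat.Agent.H75.PIDSeven
import Fermat.Agent.H54.PIDEleven
import Fermat.Agent.H54.PIDThirteen

/-!
# There is no Frey package with exponent `5`, `7`, `11` or `13`

Assembly of: case I (Sophie Germain, `H44`), case II descent (`H9`), principal ideal domains
(`five_pid`, `H75`, `H54`) and Kummer's lemma (`H43`).
-/

set_option autoImplicit false

open NumberField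

namespace Fermat.Agent.H43

theorem freyPackage_p_ne_five (P : FreyPackage) : P.p ≠ 5 := by
  intro h5
  have : Fact (Nat.Prime 5) := ⟨by norm_num⟩
  have hcyc : IsCyclotomicExtension {5} ℚ (CyclotomicField 5 ℚ) :=
    CyclotomicField.isCyclotomicExtension 5 ℚ
  have hK : Fermat.Agent.H9.KummerProp (𝓞 (CyclotomicField 5 ℚ)) 5 := by
    rintro u ⟨n, hn⟩
    exact kummer_five (CyclotomicField 5 ℚ) u n (by simpa using hn)
  exact Fermat.Agent.H9.freyPackage_false_of_eq P 5 h5 (by norm_num) (CyclotomicField 5 ℚ)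
    (IsCyclotomicExtension.Rat.five_pid (CyclotomicField 5 ℚ)) hK

theorem freyPackage_p_ne_seven (P : FreyPackage) : P.p ≠ 7 := by
  intro h7
  have : Fact (Nat.Prime 7) := ⟨by norm_num⟩
  have hcyc : IsCyclotomicExtension {7} ℚ (CyclotomicField 7 ℚ) :=
    CyclotomicField.isCyclotomicExtension 7 ℚ
  have hK : Fermat.Agent.H9.KummerProp (𝓞 (CyclotomicField 7 ℚ)) 7 := by
    rintro u ⟨n, hn⟩
    exact kummer_seven (CyclotomicField 7 ℚ) u n (by simpa using hn)
  exact Fermat.Agent.H9.freyPackage_false_of_eq P 7 h7 (by norm_num) (CyclotomicField 7 ℚ)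
    (Fermat.Agent.H75.pid_seven (CyclotomicField 7 ℚ)) hK

theorem freyPackage_p_ne_eleven (P : FreyPackage) : P.p ≠ 11 := by
  intro h11
  have : Fact (Nat.Prime 11) := ⟨by norm_num⟩
  have hcyc : IsCyclotomicExtension {11} ℚ (CyclotomicField 11 ℚ) :=
    CyclotomicField.isCyclotomicExtension 11 ℚ
  have hK : Fermat.Agent.H9.KummerProp (𝓞 (CyclotomicField 11 ℚ)) 11 := by
    rintro u ⟨n, hn⟩
    exact kummer_eleven (CyclotomicField 11 ℚ) u n (by simpa using hn)
  exact Fermat.Agent.H9.freyPackage_false_of_eq P 11 h11 (by norm_num) (CyclotomicField 11 ℚ)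
    (Fermat.Agent.H54.pid_eleven (CyclotomicField 11 ℚ)) hK

theorem freyPackage_p_ne_thirteen (P : FreyPackage) : P.p ≠ 13 := by
  intro h13
  have : Fact (Nat.Prime 13) := ⟨by norm_num⟩
  have hcyc : IsCyclotomicExtension {13} ℚ (CyclotomicField 13 ℚ) :=
    CyclotomicField.isCyclotomicExtension 13 ℚ
  have hK : Fermat.Agent.H9.KummerProp (𝓞 (CyclotomicField 13 ℚ)) 13 := by
    rintro u ⟨n, hn⟩
    exact kummer_thirteen (CyclotomicField 13 ℚ) u n (by simpa using hn)
  exact Fermat.Agent.H9.freyPackage_false_of_eq P 13 h13 (by norm_num) (CyclotomicField 13 ℚ)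
    (Fermat.Agent.H54.pid_thirteen (CyclotomicField 13 ℚ)) hK

end Fermat.Agent.H43
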