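import Mathlib
import Fermat.Agent.H43.LatticeCharpoly
import Fermat.Agent.H13.S14Defs

/-!
# The Galois module structure of the units of a cyclic number field modulo `p`

For a Galois number field `K/ℚ` whose Galois group is generated by `g`, the matrix of `g` acting
on `𝓞 Kˣ / torsion` (in a fundamental system of units) has characteristic polynomial
`1 + X + ⋯ + X^(m-1)`, `m` the number of infinite places.  Hence for a prime `p ∤ m` every
eigenspace of `g` on the units modulo `p`-th powers and torsion is at most one-dimensional.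
-/

set_option autoImplicit false
set_option linter.unusedSectionVars false

open Polynomial NumberField NumberField.Units NumberField.InfinitePlace
open NumberField.Units.dirichletUnitTheorem

namespace Fermat.Agent.H43

variable (K : Type) [Field K] [NumberField K]

/-- the Galois action on units. -/
noncomputable def galUnit (σ : K ≃ₐ[ℚ] K) : (𝓞 K)ˣ →* (𝓞 K)ˣ :=
  Units.map ((Fermat.Agent.H13.sigmaO K σ : 𝓞 K ≃+* 𝓞 K) : 𝓞 K →* 𝓞 K)

lemma galUnit_coe (σ : K ≃ₐ[ℚ] K) (u : (𝓞 K)ˣ) :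
    ((galUnit K σ u : (𝓞 K)ˣ) : 𝓞 K) = Fermat.Agent.H13.sigmaO K σ (u : 𝓞 K) := rfl

lemma galUnit_coe_coe (σ : K ≃ₐ[ℚ] K) (u : (𝓞 K)ˣ) :
    (((galUnit K σ u : (𝓞 K)ˣ) : 𝓞 K) : K) = σ ((u : 𝓞 K) : K) := rfl

lemma galUnit_mem_torsion (σ : K ≃ₐ[ℚ] K) {u : (𝓞 K)ˣ} (hu : u ∈ torsion K) :
    galUnit K σ u ∈ torsion K := by
  rw [torsion, CommGroup.mem_torsion] at hu ⊢
  exact (galUnit K σ).isOfFinOrder hu

/-- the logarithmic vector of a unit. -/
noncomputable def logVec (x : (𝓞 K)ˣ) : InfinitePlace K → ℝ :=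
  fun w => mult w * Real.log (w ((x : 𝓞 K) : K))

lemma logVec_apply (x : (𝓞 K)ˣ) (w : InfinitePlace K) :
    logVec K x w = mult w * Real.log (w ((x : 𝓞 K) : K)) := rfl

lemma logVec_mul (x y : (𝓞 K)ˣ) : logVec K (x * y) = logVec K x + logVec K y := by
  funext w
  simp only [logVec_apply, Pi.add_apply, Units.val_mul, map_mul]
  rw [Real.log_mul (Units.pos_at_place x w).ne' (Units.pos_at_place y w).ne', mul_add]

lemma logVec_one : logVec K 1 = 0 := by
  funext w
  simp [logVec_apply]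

/-- `logVec` as a monoid homomorphism. -/
noncomputable def logVecHom : (𝓞 K)ˣ →* Multiplicative (InfinitePlace K → ℝ) where
  toFun x := Multiplicative.ofAdd (logVec K x)
  map_one' := by rw [logVec_one]; rfl
  map_mul' x y := by rw [logVec_mul]; rfl

lemma logVecHom_apply (x : (𝓞 K)ˣ) : logVecHom K x = Multiplicative.ofAdd (logVec K x) := rfl

lemma logVec_inv (x : (𝓞 K)ˣ) : logVec K x⁻¹ = - logVec K x := by
  have := map_inv (logVecHom K) x
  simpa [logVecHom_apply] using congrArg Multiplicative.toAdd this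

lemma logVec_pow (x : (𝓞 K)ˣ) (n : ℕ) : logVec K (x ^ n) = n • logVec K x := by
  have := map_pow (logVecHom K) x n
  simpa [logVecHom_apply] using congrArg Multiplicative.toAdd this

lemma logVec_zpow (x : (𝓞 K)ˣ) (n : ℤ) : logVec K (x ^ n) = n • logVec K x := by
  have := map_zpow (logVecHom K) x n
  simpa [logVecHom_apply] using congrArg Multiplicative.toAdd this

lemma logVec_prod {ι : Type*} (s : Finset ι) (f : ι → (𝓞 K)ˣ) :
    logVec K (∏ i ∈ s, f i) = ∑ i ∈ s, logVec K (f i) := by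
  classical
  induction s using Finset.induction_on with
  | empty => simp [logVec_one]
  | insert a s ha ih => rw [Finset.prod_insert ha, Finset.sum_insert ha, logVec_mul, ih]

lemma logVec_eq_zero_iff (x : (𝓞 K)ˣ) : logVec K x = 0 ↔ x ∈ torsion K := by
  rw [mem_torsion]
  constructor
  · intro h w
    exact mult_log_place_eq_zero.mp (congrFun h w)
  · intro h
    funext w
    exact mult_log_place_eq_zero.mpr (h w)

lemma sum_logVec (x : (𝓞 K)ˣ) : ∑ w, logVec K x w = 0 :=
  sum_mult_mul_log x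

lemma logVec_galUnit (σ : K ≃ₐ[ℚ] K) (x : (𝓞 K)ˣ) (w : InfinitePlace K) :
    logVec K (galUnit K σ x) w = logVec K x (σ⁻¹ • w) := by
  rw [logVec_apply, logVec_apply, galUnit_coe_coe]
  have h1 : (σ⁻¹ • w) ((x : 𝓞 K) : K) = w (σ ((x : 𝓞 K) : K)) := by
    rw [InfinitePlace.smul_apply]
    rfl
  have h2 : mult (σ⁻¹ • w) = mult w := by
    unfold mult
    rw [isReal_smul_iff]
  rw [h1, h2]

/-- the exponent vector of a unit with respect to the fundamental system. -/
noncomputable def expo (x : (𝓞 K)ˣ) : Fin (Units.rank K) → ℤ :=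
  (Classical.choose (exist_unique_eq_mul_prod K x).exists).2

lemma expo_spec (x : (𝓞 K)ˣ) :
    ∃ t ∈ torsion K, x = t * ∏ i, fundSystem K i ^ expo K x i := by
  have := Classical.choose_spec (exist_unique_eq_mul_prod K x).exists
  exact ⟨_, (Classical.choose (exist_unique_eq_mul_prod K x).exists).1.2, this⟩

lemma logVec_eq_sum (x : (𝓞 K)ˣ) (a : InfinitePlace K) :
    logVec K x a = ∑ i, (expo K x i : ℝ) * logVec K (fundSystem K i) a := by
  obtain ⟨t, ht, hx⟩ := expo_spec K x
  have h1 : logVec K x = logVec K t + ∑ i, expo K x i • logVec K (fundSystem K i) := by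
    conv_lhs => rw [hx]
    rw [logVec_mul, logVec_prod]
    congr 1
    refine Finset.sum_congr rfl fun i _ => ?_
    rw [logVec_zpow]
  rw [h1, (logVec_eq_zero_iff K t).mpr ht, zero_add, Finset.sum_apply]
  refine Finset.sum_congr rfl fun i _ => ?_
  rw [Pi.smul_apply, zsmul_eq_mul]

lemma logVec_fundSystem_indep (c : Fin (Units.rank K) → ℝ)
    (hc : ∀ a, ∑ i, c i * logVec K (fundSystem K i) a = 0) : ∀ i, c i = 0 := by
  classical
  have h := ((basisUnitLattice K).ofZLatticeBasis ℝ (unitLattice K)).linearIndependent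
  rw [Fintype.linearIndependent_iff] at h
  refine h c ?_
  funext w
  rw [Finset.sum_apply, Pi.zero_apply, ← hc w.1]
  refine Finset.sum_congr rfl fun i _ => ?_
  rw [Pi.smul_apply, smul_eq_mul, Module.Basis.ofZLatticeBasis_apply,
    ← logEmbedding_fundSystem, logEmbedding_component, logVec_apply]

lemma expo_unique (x : (𝓞 K)ˣ) (c : Fin (Units.rank K) → ℤ)
    (h : ∀ a, logVec K x a = ∑ i, (c i : ℝ) * logVec K (fundSystem K i) a) : expo K x = c := by
  funext i
  have := logVec_fundSystem_indep K (fun i => ((expo K x i : ℝ) - (c i : ℝ))) (fun a => by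
    simp only [sub_mul, Finset.sum_sub_distrib]
    rw [← logVec_eq_sum, ← h, sub_self]) i
  exact_mod_cast sub_eq_zero.mp this

lemma expo_mul (x y : (𝓞 K)ˣ) : expo K (x * y) = expo K x + expo K y := by
  apply expo_unique
  intro a
  rw [logVec_mul, Pi.add_apply, logVec_eq_sum K x, logVec_eq_sum K y, ← Finset.sum_add_distrib]
  refine Finset.sum_congr rfl fun i _ => ?_
  simp only [Pi.add_apply]
  push_cast
  ring

lemma expo_pow (x : (𝓞 K)ˣ) (n : ℕ) : expo K (x ^ n) = (n : ℤ) • expo K x := by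
  apply expo_unique
  intro a
  rw [logVec_pow, Pi.smul_apply, logVec_eq_sum K x, nsmul_eq_mul, Finset.mul_sum]
  refine Finset.sum_congr rfl fun i _ => ?_
  simp only [Pi.smul_apply, smul_eq_mul]
  push_cast
  ring

lemma expo_zpow (x : (𝓞 K)ˣ) (n : ℤ) : expo K (x ^ n) = n • expo K x := by
  apply expo_unique
  intro a
  rw [logVec_zpow, Pi.smul_apply, logVec_eq_sum K x, zsmul_eq_mul, Finset.mul_sum]
  refine Finset.sum_congr rfl fun i _ => ?_
  simp only [Pi.smul_apply, smul_eq_mul]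
  push_cast
  ring

lemma expo_eq_zero_iff (x : (𝓞 K)ˣ) : expo K x = 0 ↔ x ∈ torsion K := by
  rw [← logVec_eq_zero_iff]
  constructor
  · intro h
    funext a
    rw [logVec_eq_sum, h]
    simp
  · intro h
    apply expo_unique
    intro a
    rw [h]
    simp

lemma expo_prod_fundSystem (c : Fin (Units.rank K) → ℤ) :
    expo K (∏ i, fundSystem K i ^ c i) = c := by
  apply expo_unique
  intro a
  rw [logVec_prod, Finset.sum_apply]
  refine Finset.sum_congr rfl fun i _ => ?_
  rw [logVec_zpow, Pi.smul_apply, zsmul_eq_mul]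

/-- the matrix of a Galois automorphism on the units modulo torsion. -/
noncomputable def galMatrix (σ : K ≃ₐ[ℚ] K) : Matrix (Fin (Units.rank K)) (Fin (Units.rank K)) ℤ :=
  Matrix.of fun i j => expo K (galUnit K σ (fundSystem K j)) i

lemma expo_galUnit (σ : K ≃ₐ[ℚ] K) (x : (𝓞 K)ˣ) :
    expo K (galUnit K σ x) = (galMatrix K σ).mulVec (expo K x) := by
  apply expo_unique
  intro a
  rw [logVec_galUnit, logVec_eq_sum K x]
  have h1 : ∀ j, logVec K (fundSystem K j) (σ⁻¹ • a) =
      ∑ i, (galMatrix K σ i j : ℝ) * logVec K (fundSystem K i) a := by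
    intro j
    rw [← logVec_galUnit, logVec_eq_sum]
    rfl
  simp only [h1, Matrix.mulVec, dotProduct]
  push_cast
  simp only [Finset.mul_sum, Finset.sum_mul]
  rw [Finset.sum_comm]
  refine Finset.sum_congr rfl fun i _ => Finset.sum_congr rfl fun j _ => ?_
  ring

lemma toPerm_pow_apply (g : K ≃ₐ[ℚ] K) (n : ℕ) (a : InfinitePlace K) :
    ((MulAction.toPerm g : Equiv.Perm (InfinitePlace K)) ^ n) a = g ^ n • a := by
  induction n with
  | zero => simp
  | succ n ih =>
    rw [pow_succ', Equiv.Perm.mul_apply, ih, MulAction.toPerm_apply, pow_succ', mul_smul]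

lemma single_orbit [IsGalois ℚ K] (h : K ≃ₐ[ℚ] K)
    (hg : ∀ τ : K ≃ₐ[ℚ] K, τ ∈ Submonoid.powers h) (a b : InfinitePlace K) :
    ∃ i : ℕ, ((MulAction.toPerm h : Equiv.Perm (InfinitePlace K)) ^ i) a = b := by
  obtain ⟨τ, hτ⟩ := exists_smul_eq_of_comap_eq (k := ℚ) (w := a) (w' := b)
    (Subsingleton.elim _ _)
  obtain ⟨i, hi⟩ := (Submonoid.mem_powers_iff _ _).mp (hg τ)
  refine ⟨i, ?_⟩
  rw [← hτ, ← hi]
  exact toPerm_pow_apply K h i a

lemma card_fin_rank_add_one :
    Fintype.card (Fin (Units.rank K)) + 1 = Fintype.card (InfinitePlace K) := by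
  rw [Fintype.card_fin, Units.rank]
  have : 0 < Fintype.card (InfinitePlace K) := Fintype.card_pos
  omega

/-- **The characteristic polynomial of a generator of a cyclic Galois group on the units.** -/
theorem charpoly_galMatrix [IsGalois ℚ K] (g : K ≃ₐ[ℚ] K)
    (hg : ∀ τ : K ≃ₐ[ℚ] K, τ ∈ Submonoid.powers g⁻¹) :
    (galMatrix K g).charpoly =
      ∑ i ∈ Finset.range (Fintype.card (InfinitePlace K)), (X : ℤ[X]) ^ i := by
  classical
  have h1 := @charpoly_of_perm_model (InfinitePlace K) _ _ (Fin (Units.rank K)) _ _ _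
    (galMatrix K g) (MulAction.toPerm g⁻¹) (single_orbit K g⁻¹ hg)
    (fun j => logVec K (fundSystem K j)) ?_ (fun j => sum_logVec K _)
    (logVec_fundSystem_indep K) (card_fin_rank_add_one K)
  · exact h1
  · intro j a
    rw [MulAction.toPerm_apply, ← logVec_galUnit, logVec_eq_sum]
    rfl

lemma commGroup_aux {G : Type*} [CommGroup G] (u a b : G) : u = a * (u * (a * b)⁻¹) * b := by
  rw [mul_assoc, mul_comm (u * (a * b)⁻¹) b, ← mul_assoc, mul_comm (a * b), inv_mul_cancel_right]

/-- **Multiplicity one for the Galois eigenspaces of the units modulo `p`**: if `g` generates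
the Galois group, `p` does not divide the number of infinite places, and `u`, `v` are units with
`g u = u ^ θ * (p-th power)`, `g v = v ^ θ * (p-th power)`, `v` not a root of unity times a
`p`-th power, then `u = v ^ c * t * w ^ p` with `t` a root of unity. -/
theorem unit_eigen_multiplicity_one [IsGalois ℚ K] (g : K ≃ₐ[ℚ] K)
    (hg : ∀ τ : K ≃ₐ[ℚ] K, τ ∈ Submonoid.powers g⁻¹)
    (p : ℕ) [Fact p.Prime] (hp : ¬ p ∣ Fintype.card (InfinitePlace K)) (θ : ℕ)
    (u v : (𝓞 K)ˣ)
    (hu : ∃ w : (𝓞 K)ˣ, galUnit K g u = u ^ θ * w ^ p)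
    (hv : ∃ w : (𝓞 K)ˣ, galUnit K g v = v ^ θ * w ^ p)
    (hv0 : ¬ ∃ (t w : (𝓞 K)ˣ), t ∈ torsion K ∧ v = t * w ^ p) :
    ∃ (c : ℤ) (t w : (𝓞 K)ˣ), t ∈ torsion K ∧ u = v ^ c * t * w ^ p := by
  classical
  have hx : ∀ x : (𝓞 K)ˣ, (∃ w : (𝓞 K)ˣ, galUnit K g x = x ^ θ * w ^ p) →
      ∀ i, (p : ℤ) ∣ (galMatrix K g).mulVec (expo K x) i - (θ : ℤ) * expo K x i := by
    rintro x ⟨w, hw⟩ i
    rw [← expo_galUnit, hw, expo_mul, expo_pow, expo_pow]
    simp only [Pi.add_apply, Pi.smul_apply, smul_eq_mul]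
    exact ⟨expo K w i, by ring⟩
  have hy0 : ¬ ∀ i, (p : ℤ) ∣ expo K v i := by
    intro h
    choose z hz using h
    apply hv0
    refine ⟨v * ((∏ i, fundSystem K i ^ z i) ^ p)⁻¹, ∏ i, fundSystem K i ^ z i, ?_, by group⟩
    rw [← expo_eq_zero_iff, expo_mul, ← zpow_natCast, ← zpow_neg, expo_zpow,
      expo_prod_fundSystem]
    funext i
    simp only [Pi.add_apply, Pi.smul_apply, smul_eq_mul, Pi.zero_apply, hz i]
    ring
  obtain ⟨c, hc⟩ := exists_dvd_sub_mul_of_charpoly (galMatrix K g)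
    (Fintype.card (InfinitePlace K)) (charpoly_galMatrix K g hg) p hp (θ : ℤ)
    (expo K u) (expo K v) (hx u hu) (hx v hv) hy0
  choose z hz using hc
  refine ⟨c, u * (v ^ c * (∏ i, fundSystem K i ^ z i) ^ p)⁻¹, ∏ i, fundSystem K i ^ z i, ?_,
    commGroup_aux _ _ _⟩
  rw [← expo_eq_zero_iff, expo_mul, ← zpow_neg_one, expo_zpow, expo_mul, expo_zpow,
    ← zpow_natCast, expo_zpow, expo_prod_fundSystem]
  funext i
  simp only [Pi.add_apply, Pi.smul_apply, smul_eq_mul, Pi.zero_apply]
  have := hz i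
  linarith

end Fermat.Agent.H43
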